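import Fermat.Agent.S56.Flat.Irr.WIP.Chr
import Fermat.Agent.S56.Flat.Irr.WIP.MCoc
import Fermat.Agent.S56.Flat.Irr.WIP.ShapeBasic
import Fermat.Agent.S56.Flat.Irr.WIP.GenBasic
import Fermat.Agent.S56.Flat.Irr.WIP.KFamGen
import Fermat.Agent.S56.Flat.Irr.WIP.LeadX
import Fermat.Agent.S56.Flat.Irr.WIP.Zero
import Fermat.Agent.S56.Flat.Irr.WIP.TameGen
import Fermat.Agent.S56.Flat.Irr.WIP.Cob
import Fermat.Agent.S56.Flat.Irr.WIP.FlatKC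
import Fermat.Agent.S56.Flat.Irr.WIP.Core
import Fermat.Agent.S56.Flat.Irr.WIP.Conj
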