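import Fermat.Agent.S56.Flat.Irr.WIP.LinAlg
import Fermat.Agent.S56.Flat.Irr.WIP.LinAlgEig
import Fermat.Agent.S56.Flat.Irr.WIP.NoLine
import Fermat.Agent.S56.Flat.Irr.WIP.Chi
import Fermat.Agent.S56.Flat.Irr.WIP.LeadTC
import Fermat.Agent.S56.Flat.Irr.WIP.Ybar
import Fermat.Agent.S56.Flat.Irr.WIP.ChiHypOf
import Fermat.Agent.S56.Flat.Irr.WIP.ChiConseq
import Fermat.Agent.S56.Flat.Irr.WIP.Eigen
import Fermat.Agent.S56.Flat.Irr.WIP.EigFrob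
import Fermat.Agent.S56.Flat.Irr.WIP.EigRel
import Fermat.Agent.S56.Flat.Irr.WIP.ChiTheta
import Fermat.Agent.S56.Flat.Irr.WIP.ValChi
import Fermat.Agent.S56.Flat.Irr.WIP.ExpM
import Fermat.Agent.S56.Flat.Irr.WIP.DetCyc
import Fermat.Agent.S56.Flat.Irr.WIP.Fund
import Fermat.Agent.S56.Flat.Irr.WIP.ShapeOf
import Fermat.Agent.S56.Flat.Irr.WIP.Main
import Fermat.Agent.S56.Flat.Irr.WIP.Adapter
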