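/-
S56 / FLAT / IRR (helper56): DRY RUN of `Fermat/Agent/S56/Flat/Irr/Statement.lean`:
`FC.IrrStatement` verbatim from `countCore_irr` (stub `WIP/Main.lean`), `exists_irrHyp_A` and
helper139's adapter.  When `Irr/Main.lean` is landed: copy this file to `Irr/Statement.lean` with the
import `Fermat.Agent.S56.Flat.Irr.Main` instead of `...Irr.WIP.Main`.
-/
import Fermat.Agent.S56.Flat.Irr.WIP.Main
import Fermat.Agent.S56.Flat.Irr.AdapterA
import Fermat.Agent.S56.Flat.FC.IrrAdapter
import Fermat.Agent.S56.Flat.FC.Reduce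

set_option autoImplicit false

namespace Fermat.Agent.S56.Flat.Irr

/-- **IRR**: the irreducible case of the flat bound. -/
theorem irrStatement : FC.IrrStatement := by
  intro k _ _ s p A _ hp hp2 hA hs hirr
  obtain ⟨φ, hφ⟩ := exists_irrHyp_A hp hp2 hA hs hirr
  exact FC.countGoalD_of_countCore (p := p)
    fun hflat => countCore_irr hφ hflat (FC.isLocMap_subtype A)

end Fermat.Agent.S56.Flat.Irr
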